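import Mathlib
import Fermat.Prelude.Def_ModularCurve_GenusNumerics
import Fermat.Agent.P1Count.Index

/-!
# Numerics of the genus formula at levels `m` and `m q²` (block [G] of S36)
-/

set_option autoImplicit false

open ModularCurve

namespace Fermat.Agent.TriDim

theorem nuTwo_eq_zero_of_map {N : ℕ} (d : ℕ) (hd : d ∣ N)
    (h : ∀ x : ZMod d, x ^ 2 + 1 ≠ 0) : nuTwo N = 0 := by
  rw [nuTwo]
  have : IsEmpty {x : ZMod N // x ^ 2 + 1 = 0} := by
    refine ⟨fun x => h (ZMod.castHom hd (ZMod d) x.1) ?_⟩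
    rw [← map_pow, ← map_one (ZMod.castHom hd (ZMod d)), ← map_add, x.2, map_zero]
  exact Nat.card_of_isEmpty

theorem nuThree_eq_zero_of_map {N : ℕ} (d : ℕ) (hd : d ∣ N)
    (h : ∀ x : ZMod d, x ^ 2 + x + 1 ≠ 0) : nuThree N = 0 := by
  rw [nuThree]
  have : IsEmpty {x : ZMod N // x ^ 2 + x + 1 = 0} := by
    refine ⟨fun x => h (ZMod.castHom hd (ZMod d) x.1) ?_⟩
    rw [← map_pow, ← map_one (ZMod.castHom hd (ZMod d)), ← map_add, ← map_add, x.2, map_zero]
  exact Nat.card_of_isEmpty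

theorem nuTwo_eq_zero_of_four {N : ℕ} (h : 4 ∣ N) : nuTwo N = 0 :=
  nuTwo_eq_zero_of_map 4 h (by decide)

theorem nuThree_eq_zero_of_two {N : ℕ} (h : 2 ∣ N) : nuThree N = 0 :=
  nuThree_eq_zero_of_map 2 h (by decide)

theorem nuThree_eq_zero_of_nine {N : ℕ} (h : 9 ∣ N) : nuThree N = 0 :=
  nuThree_eq_zero_of_map 9 h (by decide)

theorem nuTwo_eq_zero_of_three {N : ℕ} (h : 3 ∣ N) : nuTwo N = 0 :=
  nuTwo_eq_zero_of_map 3 h (by decide)

/-- No elliptic points. -/
theorem nu_eq_zero {N : ℕ} (h : 4 ∣ N ∨ 9 ∣ N) : nuTwo N = 0 ∧ nuThree N = 0 := by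
  rcases h with h | h
  · exact ⟨nuTwo_eq_zero_of_four h, nuThree_eq_zero_of_two ((by norm_num : 2 ∣ 4).trans h)⟩
  · exact ⟨nuTwo_eq_zero_of_three ((by norm_num : 3 ∣ 9).trans h), nuThree_eq_zero_of_nine h⟩

/-- The genus formula without elliptic points. -/
theorem genusFormula_eq {N : ℕ} (h : 4 ∣ N ∨ 9 ∣ N) :
    genusFormula N = 1 + (dedekindPsi N : ℚ) / 12 - (cuspCount N : ℚ) / 2 := by
  rw [genusFormula, (nu_eq_zero h).1, (nu_eq_zero h).2]
  simp

/-- The number of cusps is multiplicative. -/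
theorem cuspCount_mul (m n : ℕ) (h : Nat.Coprime m n) :
    cuspCount (m * n) = cuspCount m * cuspCount n := by
  rw [cuspCount, cuspCount, cuspCount, Finset.sum_mul_sum, ← Finset.sum_product']
  have hdiv : (m * n).divisors = (m.divisors ×ˢ n.divisors).image (fun p : ℕ × ℕ => p.1 * p.2) := by
    rw [← Finset.mul_def, Nat.divisors_mul]
  rw [hdiv, Finset.sum_image h.mul_injOn_divisors]
  refine Finset.sum_congr rfl ?_
  rintro ⟨d, e⟩ hde
  rw [Finset.mem_product, Nat.mem_divisors, Nat.mem_divisors] at hde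
  obtain ⟨⟨hd, hm0⟩, he, hn0⟩ := hde
  show Nat.totient (Nat.gcd (d * e) (m * n / (d * e))) = _
  have hc : Nat.Coprime d e := Nat.Coprime.coprime_dvd_left hd (Nat.Coprime.coprime_dvd_right he h)
  have hdivmul : m * n / (d * e) = (m / d) * (n / e) := Nat.mul_div_mul_comm hd he
  have hmd : m / d ∣ m := Nat.div_dvd_of_dvd hd
  have hne : n / e ∣ n := Nat.div_dvd_of_dvd he
  have h1 : Nat.Coprime (m / d) (n / e) :=
    Nat.Coprime.coprime_dvd_left hmd (Nat.Coprime.coprime_dvd_right hne h)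
  have h2 : Nat.Coprime d (n / e) :=
    Nat.Coprime.coprime_dvd_left hd (Nat.Coprime.coprime_dvd_right hne h)
  have h3 : Nat.Coprime (m / d) e :=
    Nat.Coprime.coprime_dvd_left hmd (Nat.Coprime.coprime_dvd_right he h)
  rw [hdivmul, Nat.Coprime.gcd_mul _ h1,
    Nat.Coprime.gcd_mul_right_cancel _ h3.symm,
    Nat.Coprime.gcd_mul_left_cancel _ h2]
  apply Nat.totient_mul
  exact Nat.Coprime.coprime_dvd_left (Nat.gcd_dvd_left _ _)
    (Nat.Coprime.coprime_dvd_right (Nat.gcd_dvd_left _ _) hc)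

theorem cuspCount_sq {q : ℕ} (hq : q.Prime) : cuspCount (q * q) = q + 1 := by
  rw [cuspCount, ← sq, Nat.divisors_prime_pow hq, Finset.sum_map]
  simp only [Function.Embedding.coeFn_mk]
  rw [Finset.sum_range_succ, Finset.sum_range_succ, Finset.sum_range_succ, Finset.sum_range_zero]
  have hq0 : 0 < q := hq.pos
  have h0 : q ^ 2 / q ^ 0 = q ^ 2 := by simp
  have h1 : q ^ 2 / q ^ 1 = q := by rw [pow_one, sq, Nat.mul_div_cancel _ hq0]
  have h2 : q ^ 2 / q ^ 2 = 1 := Nat.div_self (pow_pos hq0 2)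
  rw [h0, h1, h2]
  simp [Nat.totient_prime hq]
  have := hq.two_le
  omega

theorem cuspCount_mul_sq {m q : ℕ} (hq : q.Prime) (hm : ¬ q ∣ m) :
    cuspCount (m * q * q) = (q + 1) * cuspCount m := by
  have hc : Nat.Coprime m q := ((Nat.Prime.coprime_iff_not_dvd hq).mpr hm).symm
  rw [mul_assoc, cuspCount_mul m (q * q) (Nat.Coprime.mul_right hc hc), cuspCount_sq hq, mul_comm]

theorem dedekindPsi_sq {q : ℕ} (hq : q.Prime) : dedekindPsi (q * q) = q * (q + 1) := by
  have := P1Count.dedekindPsi_primePow q 1 hq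
  rw [← sq, this]
  ring

theorem dedekindPsi_mul_sq {m q : ℕ} (hq : q.Prime) (hm : ¬ q ∣ m) :
    dedekindPsi (m * q * q) = q * (q + 1) * dedekindPsi m := by
  have hc : Nat.Coprime m q := ((Nat.Prime.coprime_iff_not_dvd hq).mpr hm).symm
  rw [mul_assoc, P1Count.dedekindPsi_mul m (q * q) (Nat.Coprime.mul_right hc hc),
    dedekindPsi_sq hq, mul_comm]

theorem dedekindPsi_mul_prime {m q : ℕ} (hq : q.Prime) (hm : ¬ q ∣ m) :
    dedekindPsi (m * q) = (q + 1) * dedekindPsi m := by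
  have hc : Nat.Coprime m q := ((Nat.Prime.coprime_iff_not_dvd hq).mpr hm).symm
  have := P1Count.dedekindPsi_primePow q 0 hq
  rw [zero_add, pow_one, pow_zero] at this
  rw [P1Count.dedekindPsi_mul m q hc, this, mul_comm]

/-- **The numerical identity** behind the count on `X₀(m q²)`. -/
theorem genusFormula_mul_sq {m q : ℕ} (hq : q.Prime) (hm : ¬ q ∣ m) (h : 4 ∣ m ∨ 9 ∣ m) :
    12 * (genusFormula (m * q * q) - 1) =
      12 * ((q : ℚ) + 1) * (genusFormula m - 1) + ((q : ℚ) + 1) * (q - 1) * dedekindPsi m := by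
  have h' : 4 ∣ m * q * q ∨ 9 ∣ m * q * q := by
    rcases h with h | h
    · exact Or.inl ((h.mul_right q).mul_right q)
    · exact Or.inr ((h.mul_right q).mul_right q)
  rw [genusFormula_eq h, genusFormula_eq h', cuspCount_mul_sq hq hm, dedekindPsi_mul_sq hq hm]
  push_cast
  ring

end Fermat.Agent.TriDim
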