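import Fermat.Agent.TwoComp.Lp

/-!
# Dimension of the twisted Riemann–Roch spaces `{h : h ^ n / φ ∈ L(n r (y)_∞)}`
over an algebraically closed field of constants (block [G] of S36)
-/

set_option autoImplicit false

open AlgebraicCurve WithZero Module Polynomial
open scoped IntermediateField
open Fermat.Agent.FF Fermat.Agent.Deuring Fermat.Agent.TwoComp

namespace Fermat.Agent.TriDim

variable {K F : Type*} [Field K] [Field F] [Algebra K F] [IsFF K F]

/-- `(1/n) div φ`. -/
noncomputable def rootDiv (n : ℕ) (φ : F) : Divisor K F :=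
  Finsupp.mapRange (fun z : ℤ => z / n) (by simp) (RR.div φ)

theorem rootDiv_apply (n : ℕ) (φ : F) (v : Place K F) : rootDiv n φ v = v.ord φ / n := by
  rw [rootDiv, Finsupp.mapRange_apply, RR.div_apply]

theorem nsmul_rootDiv {n : ℕ} {φ : F} (hφ : ∀ v : Place K F, (n : ℤ) ∣ v.ord φ) :
    (n : ℤ) • (rootDiv n φ : Divisor K F) = RR.div φ := by
  ext v
  rw [Finsupp.smul_apply, rootDiv_apply, RR.div_apply, smul_eq_mul]
  exact Int.mul_ediv_cancel' (hφ v)

theorem degree_rootDiv {n : ℕ} (hn : 0 < n) {φ : F}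
    (hφ : ∀ v : Place K F, (n : ℤ) ∣ v.ord φ) :
    Divisor.degree (rootDiv n φ : Divisor K F) = 0 := by
  have h1 := congrArg Divisor.degree (nsmul_rootDiv (K := K) hφ)
  rw [map_zsmul, RR.degree_div, smul_eq_mul] at h1
  have h2 : (n : ℤ) ≠ 0 := by exact_mod_cast hn.ne'
  exact (mul_eq_zero.mp h1).resolve_left h2

/-- The twisted space `L(r (y)_∞ - (1/n) div φ)`. -/
noncomputable def twist (y : F) (n : ℕ) (φ : F) (r : ℤ) : Submodule K F :=
  riemannRochSpace (r • poleD y - rootDiv n φ)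

theorem mem_twist {y : F} {n : ℕ} (hn : 0 < n) {φ : F} (hφ0 : φ ≠ 0)
    (hφ : ∀ v : Place K F, (n : ℤ) ∣ v.ord φ) {r : ℤ} {h : F} :
    h ∈ twist (K := K) y n φ r ↔ h ^ n / φ ∈ Lp (K := K) y (n * r) := by
  rcases eq_or_ne h 0 with rfl | h0
  · rw [zero_pow hn.ne', zero_div]
    exact iff_of_true (Submodule.zero_mem _) (Submodule.zero_mem _)
  rw [twist, mem_L_iff h0, mem_Lp' (div_ne_zero (pow_ne_zero n h0) hφ0)]
  refine forall_congr' fun v => ?_
  have hn' : (0 : ℤ) < n := by exact_mod_cast hn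
  obtain ⟨d, hd⟩ := hφ v
  have e1 : (rootDiv n φ : Divisor K F) v = d := by
    rw [rootDiv_apply, hd, Int.mul_ediv_cancel_left _ hn'.ne']
  have e2 : v.ord (h ^ n / φ) = n * (v.ord h - d) := by
    rw [div_eq_mul_inv, v.ord_mul (pow_ne_zero n h0) (inv_ne_zero hφ0), v.ord_inv, ord_pow, hd]
    ring
  rw [Finsupp.sub_apply, Finsupp.smul_apply, poleD_apply, e1, e2, smul_eq_mul]
  have e3 : -((n : ℤ) * r * max (-v.ord y) 0) = n * -(r * max (-v.ord y) 0) := by ring
  rw [e3, mul_le_mul_iff_right₀ hn']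
  constructor <;> intro H <;> linarith

instance (y : F) (n : ℕ) (φ : F) (r : ℤ) : FiniteDimensional K (twist (K := K) y n φ r) :=
  finite_riemannRochSpace _

/-- **The dimension of the twisted spaces** (over an algebraically closed constant field). -/
theorem finrank_twist [IsAlgClosed K] {y : F} (hy : Transcendental K y) {n : ℕ} (hn : 0 < n)
    {φ : F} (_hφ0 : φ ≠ 0) (hφ : ∀ v : Place K F, (n : ℤ) ∣ v.ord φ) {r : ℤ}
    (hr : 2 * (genusFF K F : ℤ) - 2 < r * finrank K⟮y⟯ F) :
    (finrank K (twist (K := K) y n φ r) : ℤ) = r * finrank K⟮y⟯ F + 1 - genusFF K F := by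
  have := IsFF.finite_adjoin y hy
  have : Nonempty (Place K F) := exists_place
  have : ∀ v : Place K F, v.FiniteResidue := fun v => ⟨inferInstance⟩
  have hdeg : Divisor.degree (r • poleD y - rootDiv n φ : Divisor K F) = r * finrank K⟮y⟯ F := by
    rw [map_sub, map_zsmul, degree_poleD hy, degree_rootDiv hn hφ, smul_eq_mul, sub_zero]
  have h1 := RR.ell_eq (K := K) y hy (D := r • poleD y - rootDiv n φ)
    (by rw [hdeg, RR.ell_zero]; push_cast; linarith)
  rw [RR.ell, RR.ell_zero, hdeg] at h1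
  rw [twist, h1]
  push_cast
  ring

/-- The untwisted case. -/
theorem finrank_Lp [IsAlgClosed K] {y : F} (hy : Transcendental K y) {r : ℤ}
    (hr : 2 * (genusFF K F : ℤ) - 2 < r * finrank K⟮y⟯ F) :
    (finrank K (Lp (K := K) y r) : ℤ) = r * finrank K⟮y⟯ F + 1 - genusFF K F := by
  have := IsFF.finite_adjoin y hy
  have : Nonempty (Place K F) := exists_place
  have : ∀ v : Place K F, v.FiniteResidue := fun v => ⟨inferInstance⟩
  have hdeg : Divisor.degree (r • poleD y : Divisor K F) = r * finrank K⟮y⟯ F := by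
    rw [map_zsmul, degree_poleD hy, smul_eq_mul]
  have h1 := RR.ell_eq (K := K) y hy (D := r • poleD y)
    (by rw [hdeg, RR.ell_zero]; push_cast; linarith)
  rw [RR.ell, RR.ell_zero, hdeg] at h1
  rw [Lp, h1]
  push_cast
  ring

/-- Dimension of `L(D)` for large degree. -/
theorem finrank_L [IsAlgClosed K] {D : Divisor K F}
    (hr : 2 * (genusFF K F : ℤ) - 2 < Divisor.degree D) :
    (finrank K (riemannRochSpace D) : ℤ) = Divisor.degree D + 1 - genusFF K F := by
  obtain ⟨x, hx⟩ := IsFF.exists_transcendental (K := K) (F := F)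
  have := IsFF.finite_adjoin x hx
  have : Nonempty (Place K F) := exists_place
  have : ∀ v : Place K F, v.FiniteResidue := fun v => ⟨inferInstance⟩
  have h1 := RR.ell_eq (K := K) x hx (D := D) (by rw [RR.ell_zero]; push_cast; linarith)
  rw [RR.ell, RR.ell_zero] at h1
  rw [h1]
  push_cast
  ring

end Fermat.Agent.TriDim
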