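import Fermat.Agent.TriVal.Base
import Fermat.Agent.TriDim.RRBar

/-!
# The twisted Riemann–Roch spaces over a non closed field (block [G] of S36)
-/

set_option autoImplicit false

open AlgebraicCurve WithZero Module Polynomial ModularCurve
open scoped IntermediateField
open Fermat.Agent.FF Fermat.Agent.TwoComp Fermat.Agent.TriVal

noncomputable section

namespace Fermat.Agent.TriDim

section Integral

variable {R A : Type*} [Field R] [CommRing A] [Algebra R A]

/-- Integrality over `R[x]` in terms of polynomials. -/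
theorem isIntegral_adjoin_iff (x y : A) :
    IsIntegral (Algebra.adjoin R {x}) y ↔
      ∃ (n : ℕ) (p : ℕ → R[X]), y ^ n + ∑ i ∈ Finset.range n, aeval x (p i) * y ^ i = 0 := by
  classical
  constructor
  · rintro ⟨P, hP, hP0⟩
    have h0 : ∀ z ∈ Algebra.adjoin R {x}, ∃ p : R[X], aeval x p = z := by
      intro z hz
      rw [Algebra.adjoin_singleton_eq_range_aeval] at hz
      exact hz
    have h1 : ∀ i, ∃ p : R[X], aeval x p = ((P.coeff i : Algebra.adjoin R {x}) : A) :=
      fun i => h0 _ (P.coeff i).2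
    choose p hp using h1
    refine ⟨P.natDegree, p, ?_⟩
    rw [eval₂_eq_sum_range, Finset.sum_range_succ, hP.coeff_natDegree, map_one, one_mul] at hP0
    rw [← hP0, add_comm]
    congr 1
    refine Finset.sum_congr rfl fun i _ => ?_
    rw [hp]
    rfl
  · rintro ⟨n, p, h⟩
    have hx : x ∈ Algebra.adjoin R {x} := Algebra.self_mem_adjoin_singleton R x
    let q : ℕ → Algebra.adjoin R {x} := fun i => aeval (⟨x, hx⟩ : Algebra.adjoin R {x}) (p i)
    have hq : ∀ i, algebraMap (Algebra.adjoin R {x}) A (q i) = aeval x (p i) := by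
      intro i
      have h2 := aeval_algHom_apply (Algebra.adjoin R {x}).val (⟨x, hx⟩ : Algebra.adjoin R {x}) (p i)
      exact h2.symm
    refine ⟨X ^ n + ∑ i ∈ Finset.range n, C (q i) * X ^ i, ?_, ?_⟩
    · apply monic_X_pow_add
      rw [← mem_degreeLT]
      refine Submodule.sum_mem _ fun i hi => ?_
      rw [mem_degreeLT]
      exact (degree_C_mul_X_pow_le i (q i)).trans_lt (by exact_mod_cast Finset.mem_range.mp hi)
    · rw [eval₂_add, eval₂_pow, eval₂_X, eval₂_finsetSum]
      rw [← h]
      congr 1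
      refine Finset.sum_congr rfl fun i _ => ?_
      rw [eval₂_mul, eval₂_C, eval₂_pow, eval₂_X]
      congr 1
      exact hq i

/-- Integrality over `R[x]` is compatible with semilinear ring homomorphisms. -/
theorem isIntegral_adjoin_map {R' A' : Type*} [Field R'] [CommRing A'] [Algebra R' A']
    (s : R →+* R') (f : A →+* A') (hf : ∀ c : R, f (algebraMap R A c) = algebraMap R' A' (s c))
    {x y : A} (h : IsIntegral (Algebra.adjoin R {x}) y) :
    IsIntegral (Algebra.adjoin R' {f x}) (f y) := by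
  rw [isIntegral_adjoin_iff] at h ⊢
  obtain ⟨n, p, h⟩ := h
  have haev : ∀ P : R[X], f (aeval x P) = aeval (f x) (P.map s) := by
    intro P
    induction P using Polynomial.induction_on' with
    | add a b ha hb => rw [map_add, map_add, ha, hb, Polynomial.map_add, map_add]
    | monomial k a => rw [aeval_monomial, map_mul, map_pow, hf, map_monomial, aeval_monomial]
  refine ⟨n, fun i => (p i).map s, ?_⟩
  have h2 := congrArg f h
  rw [map_add, map_pow, map_sum, map_zero] at h2
  rw [← h2]
  congr 1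
  refine Finset.sum_congr rfl fun i _ => ?_
  rw [map_mul, map_pow, haev]

end Integral

section BC

variable {L K : Type*} [Field L] [Field K] [Algebra L K] {N : ℕ}

/-- the coefficient functional on polynomials -/
theorem fmap_aeval_mul (φ : K →ₗ[L] L) (x y : LaurentSeries L) (P : K[X]) :
    fmap φ (aeval (coeffMap (algebraMap L K) x) P * coeffMap (algebraMap L K) y) =
      aeval x (∑ k ∈ Finset.range (P.natDegree + 1), C (φ (P.coeff k)) * X ^ k) * y := by
  have hsum : ∀ (s : Finset ℕ) (g : ℕ → LaurentSeries K),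
      fmap φ (∑ k ∈ s, g k) = ∑ k ∈ s, fmap φ (g k) := by
    intro s g
    ext n
    rw [fmap_coeff, HahnSeries.coeff_sum, HahnSeries.coeff_sum, map_sum]
    rfl
  rw [aeval_eq_sum_range, Finset.sum_mul, hsum, map_sum, Finset.sum_mul]
  refine Finset.sum_congr rfl fun k _ => ?_
  rw [Algebra.smul_def, ← map_pow, mul_assoc, ← map_mul, fmap_algebraMap_mul, map_mul, aeval_C,
    map_pow, aeval_X, mul_assoc]

theorem fmap_coeffMap {φ : K →ₗ[L] L} (hφ : φ 1 = 1) (x : LaurentSeries L) :
    fmap φ (coeffMap (algebraMap L K) x) = x := by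
  ext n
  rw [fmap_coeff, coeffMap_coeff, Algebra.algebraMap_eq_smul_one, map_smul, hφ, smul_eq_mul,
    mul_one]

/-- **Descent of integrality.** -/
theorem isIntegral_of_coeffMap {x y : LaurentSeries L}
    (h : IsIntegral (Algebra.adjoin K {coeffMap (algebraMap L K) x})
      (coeffMap (algebraMap L K) y)) : IsIntegral (Algebra.adjoin L {x}) y := by
  rw [isIntegral_adjoin_iff] at h ⊢
  obtain ⟨n, p, h⟩ := h
  obtain ⟨φ, hφ⟩ := exists_functional (L := L) (K := K)
  refine ⟨n, fun i => ∑ k ∈ Finset.range ((p i).natDegree + 1), C (φ ((p i).coeff k)) * X ^ k, ?_⟩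
  have h2 := congrArg (fmap φ) h
  rw [fmap_zero, fmap_add, ← map_pow, fmap_coeffMap hφ] at h2
  rw [← h2]
  congr 1
  have hsum : ∀ (s : Finset ℕ) (g : ℕ → LaurentSeries K),
      fmap φ (∑ k ∈ s, g k) = ∑ k ∈ s, fmap φ (g k) := by
    intro s g
    ext n
    rw [fmap_coeff, HahnSeries.coeff_sum, HahnSeries.coeff_sum, map_sum]
    rfl
  rw [hsum]
  refine Finset.sum_congr rfl fun i _ => ?_
  rw [← map_pow, fmap_aeval_mul]

/-- Integrality inside a subfield of Laurent series. -/
theorem isIntegral_coe_iff {E : IntermediateField L (LaurentSeries L)} {x y : E} :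
    IsIntegral (Algebra.adjoin L {(x : LaurentSeries L)}) (y : LaurentSeries L) ↔
      IsIntegral (Algebra.adjoin L {x}) y := by
  rw [isIntegral_adjoin_iff, isIntegral_adjoin_iff]
  refine exists_congr fun n => exists_congr fun p => ?_
  have haev : ∀ P : L[X], aeval (x : LaurentSeries L) P = ((aeval x P : E) : LaurentSeries L) :=
    fun P => aeval_algHom_apply E.val x P
  have h1 : (y : LaurentSeries L) ^ n + ∑ i ∈ Finset.range n,
      aeval (x : LaurentSeries L) (p i) * (y : LaurentSeries L) ^ i =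
      ((y ^ n + ∑ i ∈ Finset.range n, aeval x (p i) * y ^ i : E) : LaurentSeries L) := by
    push_cast
    congr 1
    exact Finset.sum_congr rfl fun i _ => by rw [haev]
  rw [h1]
  exact ZeroMemClass.coe_eq_zero

theorem isIntegral_bc_iff {x y : modularFunctionFieldFullC L N} :
    IsIntegral (Algebra.adjoin K {bc L K N x}) (bc L K N y) ↔
      IsIntegral (Algebra.adjoin L {x}) y := by
  constructor
  · intro h
    rw [← isIntegral_coe_iff] at h ⊢
    exact isIntegral_of_coeffMap h
  · intro h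
    exact isIntegral_adjoin_map (algebraMap L K) (bc L K N) (bc_algebraMap L K N) h

/-- The coefficientwise action of an endomorphism of `K`. -/
def cEnd (σ : K →+* K) : modularFunctionFieldFullC K N →+* modularFunctionFieldFullC K N :=
  @bc K K _ _ σ.toAlgebra N

theorem coe_cEnd (σ : K →+* K) (x : modularFunctionFieldFullC K N) :
    (cEnd σ x : LaurentSeries K) = coeffMap σ (x : LaurentSeries K) := rfl

theorem cEnd_algebraMap (σ : K →+* K) (c : K) :
    cEnd (N := N) σ (algebraMap K _ c) = algebraMap K _ (σ c) :=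
  @bc_algebraMap K K _ _ σ.toAlgebra N c

theorem cEnd_bc {σ : K →+* K} (hσ : ∀ a : L, σ (algebraMap L K a) = algebraMap L K a)
    (x : modularFunctionFieldFullC L N) : cEnd σ (bc L K N x) = bc L K N x := by
  apply Subtype.ext
  rw [coe_cEnd, coe_bc, coeffMap_coeffMap]
  exact coeffMap_congr (RingHom.ext fun a => hσ a) _

theorem mem_Lp_mul_iff [IsFF K (modularFunctionFieldFullC K N)]
    {y : modularFunctionFieldFullC K N} (hy0 : y ≠ 0) {n r : ℕ} {f : modularFunctionFieldFullC K N} :
    f ∈ Lp (K := K) y ((n : ℤ) * (r : ℤ)) ↔ IsIntegral (Algebra.adjoin K {y}) f ∧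
      IsIntegral (Algebra.adjoin K {y⁻¹}) (f * y⁻¹ ^ (n * r)) := by
  rw [← Nat.cast_mul]
  exact mem_Lp_iff_isIntegral hy0

variable (L N) in
/-- the space `{h : h ^ n / φ ∈ L(n r)}` over `L` (defined through its base change). -/
def twistL (K : Type*) [Field K] [Algebra L K] [IsFF K (modularFunctionFieldFullC K N)]
    (y : modularFunctionFieldFullC L N) (n : ℕ) (φ : modularFunctionFieldFullC L N) (r : ℕ) :
    Submodule L (modularFunctionFieldFullC L N) :=
  ratSub L (twist (K := K) (bc L K N y) n (bc L K N φ) r)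

/-- **Dimension of the twisted spaces over `L`.** -/
theorem finrank_twistL [IsAlgClosed K] [IsFF K (modularFunctionFieldFullC K N)]
    (Γ : Set (K →+* K)) (hΓ : ∀ x : K, (∀ σ ∈ Γ, σ x = x) → x ∈ Set.range (algebraMap L K))
    (hΓL : ∀ σ ∈ Γ, ∀ a : L, σ (algebraMap L K a) = algebraMap L K a)
    {y : modularFunctionFieldFullC L N} (hy : Transcendental K (bc L K N y)) {n : ℕ} (hn : 0 < n)
    {φ : modularFunctionFieldFullC L N} (hφ0 : φ ≠ 0)
    (hφ : ∀ v : Place K (modularFunctionFieldFullC K N), (n : ℤ) ∣ v.ord (bc L K N φ)) {r : ℕ}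
    (hr : 2 * (genusFF K (modularFunctionFieldFullC K N) : ℤ) - 2 <
      r * finrank K⟮bc L K N y⟯ (modularFunctionFieldFullC K N)) :
    FiniteDimensional L (twistL L N K y n φ r) ∧
    (finrank L (twistL L N K y n φ r) : ℤ) =
      r * finrank K⟮bc L K N y⟯ (modularFunctionFieldFullC K N) + 1 -
        genusFF K (modularFunctionFieldFullC K N) := by
  have hy0 : bc L K N y ≠ 0 := by
    intro h
    rw [h] at hy
    exact hy isAlgebraic_zero
  have hφ0' : bc L K N φ ≠ 0 := (_root_.map_ne_zero _).mpr hφ0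
  have h := finrank_ratSub (L := L) Γ hΓ (twist (K := K) (bc L K N y) n (bc L K N φ) r) (by
    intro σ hσ v hv
    refine ⟨cEnd σ v, ?_, rfl⟩
    rw [mem_twist hn hφ0' hφ, mem_Lp_mul_iff hy0] at hv ⊢
    have e1 : cEnd σ v ^ n / bc L K N φ = cEnd σ (v ^ n / bc L K N φ) := by
      rw [map_div₀, map_pow, cEnd_bc (hΓL σ hσ)]
    have e2 : (bc L K N y) = cEnd σ (bc L K N y) := (cEnd_bc (hΓL σ hσ) _).symm
    have e3 : (bc L K N y)⁻¹ = cEnd σ (bc L K N y)⁻¹ := by rw [map_inv₀, ← e2]
    refine ⟨?_, ?_⟩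
    · rw [e1, e2]
      exact isIntegral_adjoin_map σ (cEnd σ) (cEnd_algebraMap σ) hv.1
    · have := isIntegral_adjoin_map σ (cEnd σ) (cEnd_algebraMap σ) hv.2
      rw [map_mul, map_pow, ← e3] at this
      rw [e1]
      exact this)
  refine ⟨h.1, ?_⟩
  rw [twistL, h.2]
  exact finrank_twist hy hn hφ0' hφ hr

theorem mem_twistL [IsFF K (modularFunctionFieldFullC K N)]
    {y : modularFunctionFieldFullC L N} (hy : y ≠ 0) {n : ℕ} (hn : 0 < n)
    {φ : modularFunctionFieldFullC L N} (hφ0 : φ ≠ 0)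
    (hφ : ∀ v : Place K (modularFunctionFieldFullC K N), (n : ℤ) ∣ v.ord (bc L K N φ)) {r : ℕ}
    {h : modularFunctionFieldFullC L N} :
    h ∈ twistL L N K y n φ r ↔ IsIntegral (Algebra.adjoin L {y}) (h ^ n / φ) ∧
      IsIntegral (Algebra.adjoin L {y⁻¹}) (h ^ n / φ * y⁻¹ ^ (n * r)) := by
  have hy0 : bc L K N y ≠ 0 := (_root_.map_ne_zero _).mpr hy
  have hφ0' : bc L K N φ ≠ 0 := (_root_.map_ne_zero _).mpr hφ0
  rw [twistL, mem_ratSub, mem_twist hn hφ0' hφ, mem_Lp_mul_iff hy0,
    ← isIntegral_bc_iff (L := L) (K := K), ← isIntegral_bc_iff (L := L) (K := K)]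
  have e' : bc L K N y⁻¹ = (bc L K N y)⁻¹ := map_inv₀ _ _
  rw [e']
  simp only [map_div₀, map_pow, map_mul, map_inv₀]

end BC

end Fermat.Agent.TriDim
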