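import Fermat.Agent.LocE.K0
import Fermat.Agent.Igusa.Degree
import Fermat.Agent.TriDim.Numerics
import Fermat.Agent.TriDim.Twist
import Fermat.Agent.S24.Final
import Fermat.Agent.X0Emb.EmbData
import Fermat.Agent.Residue.FF
import Fermat.Agent.ModFun.Conv

/-!
# Numerical inputs for `X₀(m q²)` over the fixed field of inertia (block [G] of S36)
-/

set_option autoImplicit false

open AlgebraicCurve WithZero Module Polynomial ModularCurve
open scoped IntermediateField
open Fermat.Agent.FF Fermat.Agent.TwoComp Fermat.Agent.TriVal Fermat.Agent.LocE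

noncomputable section

namespace Fermat.Agent.TriDim

/-- `ℚ̄` -/
abbrev Qb : Type := AlgebraicClosure ℚ

/-! ### The function field over `ℚ̄` -/

theorem fullC_eq_bar (N : ℕ) : modularFunctionFieldBar N = modularFunctionFieldFullC Qb N :=
  ModFun.laurentBaseChange_eq Qb N

/-- the element `j` of the function field of level `N`. -/
abbrev jE (L : Type*) [Field L] (N : ℕ) : modularFunctionFieldFullC L N :=
  ⟨jqModC L, jqModC_mem_full L N⟩

theorem transcendental_jE (L : Type*) [Field L] (N : ℕ) : Transcendental L (jE L N) :=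
  Igusa.transcendental_coe _ _ (Igusa.transcendental_jq L)

theorem jE_ne_zero (L : Type*) [Field L] (N : ℕ) : jE L N ≠ 0 := by
  intro h
  have := transcendental_jE L N
  rw [h] at this
  exact this isAlgebraic_zero

@[simp] theorem bc_jE (L K : Type*) [Field L] [Field K] [Algebra L K] (N : ℕ) :
    bc L K N (jE L N) = jE K N := by
  apply Subtype.ext
  rw [coe_bc]
  exact coeffMap_jqModC _

theorem finrank_jE (L : Type*) [Field L] (N : ℕ) [NeZero N] (hN : (N : L) ≠ 0) :
    finrank L⟮jE L N⟯ (modularFunctionFieldFullC L N) = dedekindPsi N :=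
  Igusa.finrank_full L N hN

theorem dedekindPsi_pos (N : ℕ) [NeZero N] : 0 < dedekindPsi N := by
  rw [← P1Count.card_coset]
  exact Nat.card_pos

theorem isFF_full (L : Type*) [Field L] (N : ℕ) [NeZero N] (hN : (N : L) ≠ 0) :
    IsFF L (modularFunctionFieldFullC L N) := by
  have h1 := finrank_jE L N hN
  have : FiniteDimensional L⟮jE L N⟯ (modularFunctionFieldFullC L N) := by
    apply FiniteDimensional.of_finrank_pos
    rw [h1]
    exact dedekindPsi_pos N
  exact IsFF.of_finite (transcendental_jE L N)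

instance isFF_Qb (N : ℕ) [NeZero N] : IsFF Qb (modularFunctionFieldFullC Qb N) :=
  isFF_full Qb N (Nat.cast_ne_zero.mpr (NeZero.ne N))

theorem genus_aux (N : ℕ) [NeZero N] (E : IntermediateField Qb (LaurentSeries Qb))
    (hE : modularFunctionFieldBar N = E) [IsFF Qb E] : (genusFF Qb E : ℚ) = genusFormula N := by
  subst hE
  have : HasCanonicalDivisor (K := Qb) (F := modularFunctionFieldBar N) :=
    Residue.hasCanonicalDivisor_of_isFF _ _
  rw [← Residue.genus_eq_genusFF_of_isFF]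
  exact S24aux.genus_eq_of_embData N (X0Emb.embData N)

theorem genus_full (N : ℕ) [NeZero N] :
    (genusFF Qb (modularFunctionFieldFullC Qb N) : ℚ) = genusFormula N :=
  genus_aux N _ (fullC_eq_bar N)

/-- **(G2)** the genus identity. -/
theorem genus_identity {m q : ℕ} [NeZero m] [NeZero (m * q * q)] (hq : q.Prime) (hm : ¬ q ∣ m)
    (h : 4 ∣ m ∨ 9 ∣ m) :
    12 * ((genusFF Qb (modularFunctionFieldFullC Qb (m * q * q)) : ℤ) - 1) =
      ((q : ℤ) + 1) * (12 * ((genusFF Qb (modularFunctionFieldFullC Qb m) : ℤ) - 1)) +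
        ((q : ℤ) ^ 2 - 1) * dedekindPsi m := by
  have h1 := genusFormula_mul_sq hq hm h
  rw [← genus_full, ← genus_full] at h1
  have h2 : (12 * ((genusFF Qb (modularFunctionFieldFullC Qb (m * q * q)) : ℚ) - 1)) =
      ((q : ℚ) + 1) * (12 * ((genusFF Qb (modularFunctionFieldFullC Qb m) : ℚ) - 1)) +
        ((q : ℚ) ^ 2 - 1) * dedekindPsi m := by
    rw [h1]; ring
  exact_mod_cast h2

/-! ### The inertia group -/

/-- the coefficient maps of the elements of the inertia group -/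
def inertiaSet (A : ValuationSubring Qb) : Set (Qb →+* Qb) :=
  {s | ∃ σ ∈ A.inertiaSubgroupIn ℚ, s = (σ : Qb →+* Qb)}

theorem inertiaSet_fixed (A : ValuationSubring Qb) (x : Qb) (h : ∀ s ∈ inertiaSet A, s x = x) :
    x ∈ Set.range (algebraMap (K0 A) Qb) := by
  have hx : x ∈ K0 A := by
    rw [mem_K0_iff]
    intro σ hσ
    exact h _ ⟨σ, hσ, rfl⟩
  exact ⟨⟨x, hx⟩, rfl⟩

theorem inertiaSet_algebraMap (A : ValuationSubring Qb) (s : Qb →+* Qb) (hs : s ∈ inertiaSet A)
    (a : K0 A) : s (algebraMap (K0 A) Qb a) = algebraMap (K0 A) Qb a := by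
  obtain ⟨σ, hσ, rfl⟩ := hs
  exact mem_K0_iff.mp a.2 σ hσ

/-- **(G1)**: the dimension of `{h : h ^ n / φ ∈ L(n r)}` over `L`. -/
theorem exists_W_aux {L : Type*} [Field L] [Algebra L Qb] (Γ : Set (Qb →+* Qb))
    (hΓ : ∀ x : Qb, (∀ σ ∈ Γ, σ x = x) → x ∈ Set.range (algebraMap L Qb))
    (hΓL : ∀ σ ∈ Γ, ∀ a : L, σ (algebraMap L Qb a) = algebraMap L Qb a)
    {N : ℕ} [NeZero N] {n : ℕ} (hn : 0 < n)
    {φ : modularFunctionFieldFullC L N} (hφ0 : φ ≠ 0)
    (hφ : ∀ v : Place Qb (modularFunctionFieldFullC Qb N), (n : ℤ) ∣ v.ord (bc L Qb N φ))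
    {r : ℕ} (hr : 2 * (genusFF Qb (modularFunctionFieldFullC Qb N) : ℤ) - 2 <
      r * dedekindPsi N) :
    ∃ W : Submodule L (modularFunctionFieldFullC L N),
      (∀ h, h ∈ W ↔ IsIntegral (Algebra.adjoin L {jE L N}) (h ^ n / φ) ∧
        IsIntegral (Algebra.adjoin L {(jE L N)⁻¹}) (h ^ n / φ * (jE L N)⁻¹ ^ (n * r))) ∧
      FiniteDimensional L W ∧
      (finrank L W : ℤ) =
        r * dedekindPsi N + 1 - genusFF Qb (modularFunctionFieldFullC Qb N) := by
  have hy : bc L Qb N (jE L N) = jE Qb N := bc_jE _ _ _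
  have hdeg : finrank Qb⟮bc L Qb N (jE L N)⟯ (modularFunctionFieldFullC Qb N) =
      dedekindPsi N := by
    rw [hy]
    exact finrank_jE Qb N (Nat.cast_ne_zero.mpr (NeZero.ne N))
  have htr : Transcendental Qb (bc L Qb N (jE L N)) := by
    rw [hy]
    exact transcendental_jE Qb N
  have key := finrank_twistL (L := L) (K := Qb) Γ hΓ hΓL htr hn hφ0 hφ (r := r)
    (by rw [hdeg]; exact hr)
  rw [hdeg] at key
  refine ⟨_, fun h => ?_, key.1, key.2⟩
  exact mem_twistL (L := L) (K := Qb) (jE_ne_zero L N) hn hφ0 hφ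

set_option synthInstance.maxHeartbeats 400000 in
/-- **(G1)**: the dimension of `{h : h ^ n / φ ∈ L(n r)}` over `K₀`. -/
theorem exists_W (A : ValuationSubring Qb) {N : ℕ} [NeZero N] {n : ℕ} (hn : 0 < n)
    {φ : modularFunctionFieldFullC (K0 A) N} (hφ0 : φ ≠ 0)
    (hφ : ∀ v : Place Qb (modularFunctionFieldFullC Qb N), (n : ℤ) ∣ v.ord (bc (K0 A) Qb N φ))
    {r : ℕ} (hr : 2 * (genusFF Qb (modularFunctionFieldFullC Qb N) : ℤ) - 2 <
      r * dedekindPsi N) :
    ∃ W : Submodule (K0 A) (modularFunctionFieldFullC (K0 A) N),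
      (∀ h, h ∈ W ↔ IsIntegral (Algebra.adjoin (K0 A) {jE (K0 A) N}) (h ^ n / φ) ∧
        IsIntegral (Algebra.adjoin (K0 A) {(jE (K0 A) N)⁻¹})
          (h ^ n / φ * (jE (K0 A) N)⁻¹ ^ (n * r))) ∧
      FiniteDimensional (K0 A) W ∧
      (finrank (K0 A) W : ℤ) =
        r * dedekindPsi N + 1 - genusFF Qb (modularFunctionFieldFullC Qb N) :=
  exists_W_aux (L := K0 A) (inertiaSet A) (inertiaSet_fixed A) (inertiaSet_algebraMap A) hn hφ0
    hφ hr

/-- The degree of `X₀(m q²)` over the `j`-line, over any field of characteristic zero. -/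
theorem finrank_jE_mul_sq (L : Type*) [Field L] [CharZero L] {m q : ℕ} [NeZero (m * q * q)]
    (hq : q.Prime) (hm : ¬ q ∣ m) :
    finrank L⟮jE L (m * q * q)⟯ (modularFunctionFieldFullC L (m * q * q)) =
      q * (q + 1) * dedekindPsi m := by
  rw [finrank_jE L (m * q * q) (Nat.cast_ne_zero.mpr (NeZero.ne _)), dedekindPsi_mul_sq hq hm]

/-- The hypothesis of `TriComp.Data.full`, from good reduction at level `m`
(`genusFF k F' = genusFF ℚ̄ F_m`). -/
theorem genus_identity' {m q : ℕ} [NeZero m] [NeZero (m * q * q)] (hq : q.Prime) (hm : ¬ q ∣ m)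
    (h : 4 ∣ m ∨ 9 ∣ m) {g' : ℕ} (hg : genusFF Qb (modularFunctionFieldFullC Qb m) = g') :
    12 * ((genusFF Qb (modularFunctionFieldFullC Qb (m * q * q)) : ℤ) - 1) =
      ((q : ℤ) + 1) * (12 * ((g' : ℤ) - 1)) + ((q : ℤ) ^ 2 - 1) * dedekindPsi m := by
  rw [← hg]
  exact genus_identity hq hm h

end Fermat.Agent.TriDim
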